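/-
helper2, P-MW / MW-A1-ART (row 709): the algebraic residue theorem for `G dy / y`.
Part 1 (chart): in the frame `K[X] → K(X) → F`, `X ↦ y`, with `B` the integral closure of `K[X]`
in `F`: if `ord_v G ≥ 1 - ord_v (y - c)` at all zeros `v` of all `y - c`, then `Tr_{F/K(X)} G` is
regular at all places with `ord_v y ≥ 0`; and if this trace is a constant `τ₀` and `G` has the
value `cv v` at the zeros `v` of `y`, then `τ₀ = ∑_{v | y = 0} ord_v (y) cv v`.
-/
import Fermat.Agent.H84.MWDiv.Interfaces
import Fermat.Agent.H19.RH.FibreSumFinal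
import Fermat.Agent.H47.RH.LocalDiscr
import Fermat.Agent.H2.KLBRBranchCalc

set_option autoImplicit false
set_option linter.style.haveILetI false
set_option linter.unusedSectionVars false
set_option linter.deprecated false
set_option linter.overlappingInstances false

open Polynomial AlgebraicCurve IsDedekindDomain IntermediateField

namespace Fermat.Agent.H2

noncomputable section

open Fermat.Agent.H56.RH Fermat.Agent.H19 Fermat.Agent.H47.RH Fermat.Agent.H23

section artsmall

variable {K F : Type} [Field K] [Field F] [Algebra K F]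

/-- `f` vanishes at the place `v` -/
def ArtSmall (v : Place K F) (f : F) : Prop := f = 0 ∨ 0 < v.ord f

theorem art_small_mem {v : Place K F} {f : F} (h : ArtSmall v f) : f ∈ v.toValuationSubring := by
  rcases h with rfl | h
  · exact zero_mem _
  · exact Fermat.Agent.H23.mem_of_ord_nonneg v h.le

theorem art_small_iff (v : Place K F) (a : v.toValuationSubring) :
    ArtSmall v (a : F) ↔ a ∈ IsLocalRing.maximalIdeal v.toValuationSubring :=
  (Fermat.Agent.H29.place_mem_maximalIdeal_iff v a).symm

theorem art_small_sub {v : Place K F} {f g : F} (hf : ArtSmall v f) (hg : ArtSmall v g) :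
    ArtSmall v (f - g) := by
  have h1 := (art_small_iff v ⟨f, art_small_mem hf⟩).mp hf
  have h2 := (art_small_iff v ⟨g, art_small_mem hg⟩).mp hg
  exact (art_small_iff v _).mpr (Ideal.sub_mem _ h1 h2)

theorem art_small_neg {v : Place K F} {f : F} (hf : ArtSmall v f) : ArtSmall v (-f) := by
  have h1 := (art_small_iff v ⟨f, art_small_mem hf⟩).mp hf
  exact (art_small_iff v _).mpr (Ideal.neg_mem_iff _ |>.mpr h1)

theorem art_small_mul {v : Place K F} {f g : F} (hf : ArtSmall v f)
    (hg : g ∈ v.toValuationSubring) : ArtSmall v (g * f) := by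
  have h1 := (art_small_iff v ⟨f, art_small_mem hf⟩).mp hf
  exact (art_small_iff v _).mpr (Ideal.mul_mem_left _ ⟨g, hg⟩ h1)

end artsmall

section artcore

variable {K F : Type} [Field K] [IsAlgClosed K] [Field F] [Algebra K F]
  [Algebra K[X] F] [Algebra (RatFunc K) F] [IsScalarTower K K[X] F]
  [IsScalarTower K[X] (RatFunc K) F] [IsScalarTower K (RatFunc K) F]
  [Algebra (PolyInv K) F] [IsScalarTower (PolyInv K) (RatFunc K) F]
  [IsScalarTower K (PolyInv K) F]
  [FiniteDimensional (RatFunc K) F] [Algebra.IsSeparable (RatFunc K) F]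

/-- integrality over `K[X]` is regularity at the places where `y` is finite -/
theorem art_isIntegral_iff (f : F) :
    IsIntegral K[X] f ↔ ∀ v : Place K F, 0 ≤ v.ord (yOf K F) → 0 ≤ v.ord f :=
  isIntegral_poly_iff rhDictStrong f

theorem art_aeval_ne_zero {d : K[X]} (hd : d ≠ 0) : aeval (yOf K F) d ≠ 0 := by
  intro h
  have hy : Transcendental K (yOf K F) := yOf_transcendental
  rw [transcendental_iff_injective] at hy
  exact hd (hy (by rw [h, map_zero]))

theorem art_sub_ne_zero (c : K) : yOf K F - algebraMap K F c ≠ 0 := by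
  rw [← rh_frame_algebraMap_X_sub_C, algebraMap_poly_eq_aeval]
  exact art_aeval_ne_zero (X_sub_C_ne_zero c)

/-- clearing the denominator of `G` away from `c` -/
theorem art_exists_denominator (G : F) (c : K) :
    ∃ (d : K[X]) (k : ℕ), d.eval c ≠ 0 ∧
      IsIntegral K[X] (algebraMap K[X] F ((X - C c) ^ k * d) * G) := by
  haveI := isLocalization_integralClosure K[X] (RatFunc K) F
  obtain ⟨⟨b, s⟩, hs⟩ := IsLocalization.surj
    (Algebra.algebraMapSubmonoid (integralClosure K[X] F) (nonZeroDivisors K[X])) G
  obtain ⟨d₁, hd₁, hd₁s⟩ := s.2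
  have hd₁0 : d₁ ≠ 0 := nonZeroDivisors.ne_zero hd₁
  obtain ⟨q, hq, hnd⟩ := Polynomial.exists_eq_pow_rootMultiplicity_mul_and_not_dvd d₁ hd₁0 c
  refine ⟨q, d₁.rootMultiplicity c, ?_, ?_⟩
  · intro h
    exact hnd ((Polynomial.dvd_iff_isRoot).mpr h)
  · rw [← hq]
    have h1 : algebraMap K[X] F d₁ * G = algebraMap (integralClosure K[X] F) F b := by
      rw [← hs, mul_comm]
      congr 1
      rw [← hd₁s]
      rfl
    rw [h1]
    exact b.2


/-- the integral closure is a finite free `K[X]`-module -/
theorem art_finite_free :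
    Module.Finite K[X] (integralClosure K[X] F) ∧ Module.Free K[X] (integralClosure K[X] F) := by
  haveI := isTorsionFree_of_tower K[X] (RatFunc K) F
  exact ⟨IsIntegralClosure.finite K[X] (RatFunc K) F (integralClosure K[X] F),
    IsIntegralClosure.module_free K[X] (RatFunc K) F (integralClosure K[X] F)⟩

/-- the trace of `d G`, computed in the integral closure -/
theorem art_trace_eq (d : K[X]) (G : F) (hint : IsIntegral K[X] (algebraMap K[X] F d * G)) :
    haveI := (art_finite_free (K := K) (F := F)).1
    haveI := (art_finite_free (K := K) (F := F)).2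
    algebraMap K[X] (RatFunc K)
        (Algebra.trace K[X] (integralClosure K[X] F) ⟨algebraMap K[X] F d * G, hint⟩) =
      algebraMap K[X] (RatFunc K) d * Algebra.trace (RatFunc K) F G := by
  haveI := (art_finite_free (K := K) (F := F)).1
  haveI := (art_finite_free (K := K) (F := F)).2
  haveI := isLocalization_integralClosure K[X] (RatFunc K) F
  have h1 := Algebra.trace_localization K[X] (nonZeroDivisors K[X]) (Rₘ := RatFunc K) (Sₘ := F)
    (⟨algebraMap K[X] F d * G, hint⟩ : integralClosure K[X] F)
  rw [← h1]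
  have h2 : algebraMap (integralClosure K[X] F) F ⟨algebraMap K[X] F d * G, hint⟩ =
      (algebraMap K[X] (RatFunc K) d) • G := by
    rw [Algebra.smul_def, ← IsScalarTower.algebraMap_apply K[X] (RatFunc K) F]
    rfl
  rw [h2, map_smul, smul_eq_mul]


theorem art_isMaximal (c : K) : (Ideal.span {X - C c} : Ideal K[X]).IsMaximal :=
  PrincipalIdealRing.isMaximal_of_irreducible (Polynomial.irreducible_X_sub_C c)

theorem art_span_ne_bot (c : K) : (Ideal.span {X - C c} : Ideal K[X]) ≠ ⊥ := by
  rw [Ne, Ideal.span_singleton_eq_bot]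
  exact X_sub_C_ne_zero c

section dedekind

variable [IsDedekindDomain (integralClosure K[X] F)]
  [IsFractionRing (integralClosure K[X] F) F]

theorem art_algebraMap_ne_zero (c : K) :
    algebraMap K[X] (integralClosure K[X] F) (X - C c) ≠ 0 := by
  intro h
  have h1 := congrArg (algebraMap (integralClosure K[X] F) F) h
  rw [← IsScalarTower.algebraMap_apply K[X] (integralClosure K[X] F) F, map_zero,
    rh_frame_algebraMap_X_sub_C] at h1
  exact art_sub_ne_zero c h1

/-- the primes of `B` containing `X - c` are the zeros of `y - c` -/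
theorem art_map_le_iff (c : K) (w : HeightOneSpectrum (integralClosure K[X] F)) :
    (Ideal.span {X - C c} : Ideal K[X]).map (algebraMap K[X] (integralClosure K[X] F)) ≤
        w.asIdeal ↔
      0 < (Place.ofHeightOneSpectrum (K := K) (F := F) w).ord (yOf K F - algebraMap K F c) := by
  rw [Ideal.map_span, Set.image_singleton, Ideal.span_singleton_le_iff_mem,
    ← Fermat.Agent.H29.ord_ofHeightOneSpectrum_pos_iff (K := K) (F := F),
    or_iff_right (art_algebraMap_ne_zero c),
    ← IsScalarTower.algebraMap_apply K[X] (integralClosure K[X] F) F,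
    rh_frame_algebraMap_X_sub_C]

theorem art_mem_iff (w : HeightOneSpectrum (integralClosure K[X] F))
    (x : integralClosure K[X] F) :
    x ∈ w.asIdeal ↔
      (x : F) = 0 ∨ 0 < (Place.ofHeightOneSpectrum (K := K) (F := F) w).ord (x : F) := by
  rw [← Fermat.Agent.H29.ord_ofHeightOneSpectrum_pos_iff (K := K) (F := F)]
  have h1 : (x = 0) ↔ ((x : F) = 0) := by
    constructor
    · rintro rfl; rfl
    · intro h; exact Subtype.ext h
  rw [h1]
  rfl

theorem art_ne_bot_of_le (c : K) {P : Ideal (integralClosure K[X] F)}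
    (hle : (Ideal.span {X - C c} : Ideal K[X]).map
      (algebraMap K[X] (integralClosure K[X] F)) ≤ P) : P ≠ ⊥ := by
  rintro rfl
  have h1 : algebraMap K[X] (integralClosure K[X] F) (X - C c) ∈
      (⊥ : Ideal (integralClosure K[X] F)) :=
    hle (Ideal.mem_map_of_mem _ (Ideal.mem_span_singleton_self _))
  exact art_algebraMap_ne_zero c ((Ideal.mem_bot).mp h1)

end dedekind

/-- **local regularity of the trace**: if `ord_v G ≥ 1 - ord_v (y - c)` at all zeros of `y - c`,
then `d * Tr G ∈ K[X]` for a polynomial `d` with `d c ≠ 0`. -/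
theorem art_trace_local (G : F) (hG0 : G ≠ 0) (c : K)
    (hc : ∀ v : Place K F, 0 < v.ord (yOf K F - algebraMap K F c) →
      1 - v.ord (yOf K F - algebraMap K F c) ≤ v.ord G) :
    ∃ a d : K[X], d.eval c ≠ 0 ∧
      algebraMap K[X] (RatFunc K) d * Algebra.trace (RatFunc K) F G =
        algebraMap K[X] (RatFunc K) a := by
  classical
  haveI := isDedekindDomain_integralClosure K[X] (RatFunc K) F
  haveI := isFractionRing_integralClosure K[X] (RatFunc K) F
  haveI := (art_finite_free (K := K) (F := F)).1
  haveI := (art_finite_free (K := K) (F := F)).2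
  haveI := isTorsionFree_of_tower K[X] (RatFunc K) F
  obtain ⟨d, k, hdc, hint⟩ := art_exists_denominator (K := K) G c
  have hd0 : d ≠ 0 := by
    rintro rfl
    simp at hdc
  have hdy : aeval (yOf K F) d ≠ 0 := art_aeval_ne_zero hd0
  have hyc : yOf K F - algebraMap K F c ≠ 0 := art_sub_ne_zero c
  have hy : Transcendental K (yOf K F) := yOf_transcendental
  have hmap : algebraMap K[X] F ((X - C c) * d) * G =
      (yOf K F - algebraMap K F c) * (aeval (yOf K F) d * G) := by
    rw [map_mul, rh_frame_algebraMap_X_sub_C, algebraMap_poly_eq_aeval, mul_assoc]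
  have hmapk : algebraMap K[X] F ((X - C c) ^ k * d) * G =
      (yOf K F - algebraMap K F c) ^ k * (aeval (yOf K F) d * G) := by
    rw [map_mul, map_pow, rh_frame_algebraMap_X_sub_C, algebraMap_poly_eq_aeval, mul_assoc]
  have hpos : ∀ v : Place K F, 0 < v.ord (yOf K F - algebraMap K F c) →
      0 < v.ord (algebraMap K[X] F ((X - C c) * d) * G) := by
    intro v hv
    rw [hmap, v.ord_mul hyc (mul_ne_zero hdy hG0), v.ord_mul hdy hG0,
      (klbr_ord_aeval_eq_zero v hv d hdc).2]
    have := hc v hv
    omega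
  have hint1 : IsIntegral K[X] (algebraMap K[X] F ((X - C c) * d) * G) := by
    rw [art_isIntegral_iff]
    intro v hv
    rcases rh_place_cases v (rh_frame_deg_one v) hy with h | ⟨c', h⟩
    · omega
    · by_cases hcc : c' = c
      · subst hcc
        exact (hpos v h).le
      · have h0 := (klbr_sub_const_of_pos v h (b := c) (Ne.symm hcc)).2
        have h1 := (art_isIntegral_iff _).mp hint v hv
        rw [hmapk, v.ord_mul (pow_ne_zero k hyc) (mul_ne_zero hdy hG0), klbr_ord_pow, h0,
          mul_zero, zero_add] at h1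
        rw [hmap, v.ord_mul hyc (mul_ne_zero hdy hG0), h0, zero_add]
        exact h1
  haveI hpmax : (Ideal.span {X - C c} : Ideal K[X]).IsMaximal := art_isMaximal c
  have hmem : Algebra.trace K[X] (integralClosure K[X] F)
      ⟨algebraMap K[X] F ((X - C c) * d) * G, hint1⟩ ∈ (Ideal.span {X - C c} : Ideal K[X]) := by
    apply trace_mem_of_forall_mem (Ideal.span {X - C c} : Ideal K[X])
    intro P hP hle
    have hP0 : P ≠ ⊥ := art_ne_bot_of_le c hle
    have key := (art_mem_iff (K := K) (F := F) ⟨P, hP, hP0⟩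
      ⟨algebraMap K[X] F ((X - C c) * d) * G, hint1⟩).mpr
      (Or.inr (hpos _ ((art_map_le_iff c ⟨P, hP, hP0⟩).mp hle)))
    exact key
  obtain ⟨a, ha⟩ := Ideal.mem_span_singleton'.mp hmem
  refine ⟨a, d, hdc, ?_⟩
  have h3 := art_trace_eq ((X - C c) * d) G hint1
  rw [← ha, map_mul, map_mul] at h3
  have hne : algebraMap K[X] (RatFunc K) (X - C c) ≠ 0 :=
    RatFunc.algebraMap_ne_zero (X_sub_C_ne_zero c)
  apply mul_left_cancel₀ hne
  rw [← mul_assoc, ← h3]
  ring

/-- **regularity of the trace** at the places where `y` is finite -/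
theorem art_trace_regular (G : F) (hG0 : G ≠ 0)
    (hc : ∀ (c : K) (v : Place K F), 0 < v.ord (yOf K F - algebraMap K F c) →
      1 - v.ord (yOf K F - algebraMap K F c) ≤ v.ord G)
    (v : Place K F) (hv : 0 ≤ v.ord (yOf K F)) :
    0 ≤ v.ord (algebraMap (RatFunc K) F (Algebra.trace (RatFunc K) F G)) := by
  have hy : Transcendental K (yOf K F) := yOf_transcendental
  rcases rh_place_cases v (rh_frame_deg_one v) hy with h | ⟨c, h⟩
  · omega
  obtain ⟨a, d, hdc, had⟩ := art_trace_local G hG0 c (hc c)
  have h1 := congrArg (algebraMap (RatFunc K) F) had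
  rw [map_mul, ← IsScalarTower.algebraMap_apply K[X] (RatFunc K) F,
    ← IsScalarTower.algebraMap_apply K[X] (RatFunc K) F, algebraMap_poly_eq_aeval,
    algebraMap_poly_eq_aeval] at h1
  by_cases hτ : algebraMap (RatFunc K) F (Algebra.trace (RatFunc K) F G) = 0
  · rw [hτ, Place.ord_zero]
  obtain ⟨hd0, hdo⟩ := klbr_ord_aeval_eq_zero v h d hdc
  have h2 := congrArg v.ord h1
  rw [v.ord_mul hd0 hτ, hdo, zero_add] at h2
  rw [h2]
  exact ord_nonneg_of_mem v (klbr_aeval_mem v (klbr_mem_of_ord_sub_pos v h) a)


/-- evaluation at `c` on `K[X] / (X - c)` -/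
def artEval (c : K) : K[X] ⧸ (Ideal.span {X - C c} : Ideal K[X]) →+* K :=
  Ideal.Quotient.lift _ (Polynomial.evalRingHom c) (by
    intro a ha
    obtain ⟨b, rfl⟩ := Ideal.mem_span_singleton'.mp ha
    simp)

theorem artEval_mk (c : K) (f : K[X]) :
    artEval c (Ideal.Quotient.mk (Ideal.span {X - C c} : Ideal K[X]) f) = f.eval c := by
  simp [artEval]

section residue

attribute [local instance] Ideal.Quotient.field

/-- residue degree one -/
theorem art_hsurj (c : K) [IsDedekindDomain (integralClosure K[X] F)]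
    [Module.IsTorsionFree K[X] (integralClosure K[X] F)]
    [Module.Finite K[X] (integralClosure K[X] F)] [Module.Free K[X] (integralClosure K[X] F)] :
    haveI := art_isMaximal c
    ∀ P ∈ IsDedekindDomain.primesOverFinset (Ideal.span {X - C c} : Ideal K[X])
      (integralClosure K[X] F),
      Function.Surjective (algebraMap K[X] ((integralClosure K[X] F) ⧸ P)) := by
  haveI hpmax := art_isMaximal c
  intro P hP
  have hp := art_span_ne_bot c
  let e : K ≃+* (K[X] ⧸ (Ideal.span {X - C c} : Ideal K[X])) :=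
    RingEquiv.ofBijective ((Ideal.Quotient.mk _).comp (algebraMap K K[X]))
      (bijective_mk_X_sub_C c)
  have hAC : IsAlgClosed (K[X] ⧸ (Ideal.span {X - C c} : Ideal K[X])) :=
    IsAlgClosed.of_ringEquiv K _ e
  obtain ⟨hPmax, hPover⟩ := isMaximal_of_mem_primesOverFinset _ hp hP
  have hbij' := IsAlgClosed.algebraMap_bijective_of_isIntegral
    (k := K[X] ⧸ (Ideal.span {X - C c} : Ideal K[X])) (K := (integralClosure K[X] F) ⧸ P)
  intro w
  obtain ⟨a, ha⟩ := hbij'.2 w
  obtain ⟨a, rfl⟩ := Ideal.Quotient.mk_surjective a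
  refine ⟨a, ?_⟩
  rw [← ha, Ideal.Quotient.algebraMap_mk_of_liesOver]
  rfl

end residue


/-- **value of a constant trace**: if `G` is regular at the zeros `v` of `y`, with values `cv v`,
and `Tr G` is the constant `τ₀`, then `τ₀ = ∑_{v | y = 0} ord_v (y) cv v`. -/
theorem art_trace_value (G : F) (hG0 : G ≠ 0) (cv : Place K F → K)
    (hval : ∀ v : Place K F, 0 < v.ord (yOf K F) →
      0 ≤ v.ord G ∧ (G = algebraMap K F (cv v) ∨ 0 < v.ord (G - algebraMap K F (cv v))))
    (τ₀ : K)
    (hτ : algebraMap (RatFunc K) F (Algebra.trace (RatFunc K) F G) = algebraMap K F τ₀) :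
    {v : Place K F | 0 < v.ord (yOf K F)}.Finite ∧
    τ₀ = ∑ᶠ v ∈ {v : Place K F | 0 < v.ord (yOf K F)}, ((v.ord (yOf K F) : ℤ) : K) * cv v := by
  classical
  haveI := isDedekindDomain_integralClosure K[X] (RatFunc K) F
  haveI := isFractionRing_integralClosure K[X] (RatFunc K) F
  haveI := (art_finite_free (K := K) (F := F)).1
  haveI := (art_finite_free (K := K) (F := F)).2
  haveI := isTorsionFree_of_tower K[X] (RatFunc K) F
  haveI hpmax : (Ideal.span {X - C (0 : K)} : Ideal K[X]).IsMaximal := art_isMaximal 0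
  have hp := art_span_ne_bot (0 : K)
  have h00 : yOf K F - algebraMap K F 0 = yOf K F := by rw [map_zero, sub_zero]
  have hy : Transcendental K (yOf K F) := yOf_transcendental
  obtain ⟨d, k, hdc, hint⟩ := art_exists_denominator (K := K) G 0
  have hd0 : d ≠ 0 := by
    rintro rfl
    simp at hdc
  have hdy : aeval (yOf K F) d ≠ 0 := art_aeval_ne_zero hd0
  have hyc : yOf K F - algebraMap K F 0 ≠ 0 := art_sub_ne_zero 0
  have hmapk : algebraMap K[X] F ((X - C 0) ^ k * d) * G =
      (yOf K F - algebraMap K F 0) ^ k * (aeval (yOf K F) d * G) := by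
    rw [map_mul, map_pow, rh_frame_algebraMap_X_sub_C, algebraMap_poly_eq_aeval, mul_assoc]
  -- `d(y) G` is integral
  have hint1 : IsIntegral K[X] (algebraMap K[X] F d * G) := by
    rw [art_isIntegral_iff]
    intro v hv
    rw [algebraMap_poly_eq_aeval, v.ord_mul hdy hG0]
    rcases rh_place_cases v (rh_frame_deg_one v) hy with h | ⟨c', h⟩
    · omega
    · by_cases hcc : c' = 0
      · subst hcc
        rw [(klbr_ord_aeval_eq_zero v h d hdc).2, zero_add]
        rw [h00] at h
        exact (hval v h).1
      · have h0 := (klbr_sub_const_of_pos v h (b := 0) (Ne.symm hcc)).2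
        have h1 := (art_isIntegral_iff _).mp hint v hv
        rw [hmapk, v.ord_mul (pow_ne_zero k hyc) (mul_ne_zero hdy hG0), klbr_ord_pow, h0,
          mul_zero, zero_add, v.ord_mul hdy hG0] at h1
        exact h1
  set x : integralClosure K[X] F := ⟨algebraMap K[X] F d * G, hint1⟩ with hx
  have hxF : (x : F) = aeval (yOf K F) d * G := by
    rw [← algebraMap_poly_eq_aeval]
  set s := IsDedekindDomain.primesOverFinset (Ideal.span {X - C (0 : K)} : Ideal K[X])
    (integralClosure K[X] F) with hs
  -- the place of a prime over `X`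
  have hle : ∀ P : ↥s, (Ideal.span {X - C (0 : K)} : Ideal K[X]).map
      (algebraMap K[X] (integralClosure K[X] F)) ≤ (P : Ideal (integralClosure K[X] F)) :=
    fun P => map_le_of_mem_primesOverFinset _ hp P.2
  let toHOS : ↥s → HeightOneSpectrum (integralClosure K[X] F) := fun P =>
    ⟨P.1, (isMaximal_of_mem_primesOverFinset _ hp P.2).1.isPrime, art_ne_bot_of_le 0 (hle P)⟩
  let Φ : ↥s → Place K F := fun P => Place.ofHeightOneSpectrum (K := K) (F := F) (toHOS P)
  have hΦpos : ∀ P : ↥s, 0 < (Φ P).ord (yOf K F) := by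
    intro P
    have := (art_map_le_iff (K := K) (F := F) 0 (toHOS P)).mp (hle P)
    rwa [h00] at this
  have hΦinj : Function.Injective Φ := by
    intro P Q hPQ
    have h1 := Fermat.Agent.H29.ofHeightOneSpectrum_injective (K := K) (F := F) hPQ
    apply Subtype.ext
    exact congrArg HeightOneSpectrum.asIdeal h1
  have hD := rhDict' (K := K) (F := F) (A := K[X]) (B := integralClosure K[X] F) (yOf K F)
    range_algebraMap_poly
  -- the zeros of `y` are the places of the primes over `X`
  have hZ : {v : Place K F | 0 < v.ord (yOf K F)} = ↑(s.attach.image Φ) := by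
    ext v
    simp only [Set.mem_ofPred_eq, Finset.coe_image, Set.mem_image, Finset.mem_coe,
      Finset.mem_attach, true_and]
    constructor
    · intro hv
      obtain ⟨w, rfl⟩ := hD.1 v hv.le
      have hw : (Ideal.span {X - C (0 : K)} : Ideal K[X]).map
          (algebraMap K[X] (integralClosure K[X] F)) ≤ w.asIdeal := by
        rw [art_map_le_iff (K := K) (F := F), h00]
        exact hv
      exact ⟨⟨w.asIdeal, mem_primesOverFinset_of_le _ hp w.isPrime hw⟩, rfl⟩
    · rintro ⟨P, rfl⟩
      exact hΦpos P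
  refine ⟨by rw [hZ]; exact Finset.finite_toSet _, ?_⟩
  -- the residues
  set cc : Ideal (integralClosure K[X] F) → K := fun P =>
    if h : P ∈ s then cv (Φ ⟨P, h⟩) else 0 with hcc
  set a : Ideal (integralClosure K[X] F) → K[X] := fun P => C (d.eval 0 * cc P) with ha
  have hares : ∀ P ∈ s, algebraMap K[X] (integralClosure K[X] F) (a P) - x ∈ P := by
    intro P hP
    have hpos := hΦpos ⟨P, hP⟩
    have hcoe : ((algebraMap K[X] (integralClosure K[X] F) (a P) - x :
        integralClosure K[X] F) : F) =
        algebraMap K F (d.eval 0 * cv (Φ ⟨P, hP⟩)) - aeval (yOf K F) d * G := by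
      have h1 : ((algebraMap K[X] (integralClosure K[X] F) (a P) : integralClosure K[X] F) : F)
          = algebraMap K[X] F (a P) := rfl
      rw [AddSubgroupClass.coe_sub, h1, hxF, algebraMap_poly_eq_aeval]
      simp only [ha, hcc, dif_pos hP, aeval_C]
    have hsmall : ArtSmall (Φ ⟨P, hP⟩)
        (algebraMap K F (d.eval 0 * cv (Φ ⟨P, hP⟩)) - aeval (yOf K F) d * G) := by
      have hG1 : ArtSmall (Φ ⟨P, hP⟩) (G - algebraMap K F (cv (Φ ⟨P, hP⟩))) := by
        rcases (hval _ hpos).2 with h | h
        · left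
          rw [← h, sub_self]
        · exact Or.inr h
      have hGm : G ∈ (Φ ⟨P, hP⟩).toValuationSubring :=
        Fermat.Agent.H23.mem_of_ord_nonneg _ (hval _ hpos).1
      have hpos' : 0 < (Φ ⟨P, hP⟩).ord (yOf K F - algebraMap K F 0) := by rwa [h00]
      have hd1 : ArtSmall (Φ ⟨P, hP⟩) (aeval (yOf K F) d - algebraMap K F (d.eval 0)) := by
        rcases klbr_aeval_sub (Φ ⟨P, hP⟩) hpos' d with h | h
        · left
          rw [← h, sub_self]
        · exact Or.inr h
      have e1 : algebraMap K F (d.eval 0 * cv (Φ ⟨P, hP⟩)) - aeval (yOf K F) d * G =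
          -(algebraMap K F (d.eval 0) * (G - algebraMap K F (cv (Φ ⟨P, hP⟩)))) -
            G * (aeval (yOf K F) d - algebraMap K F (d.eval 0)) := by
        rw [map_mul]
        ring
      rw [e1]
      exact art_small_sub (art_small_neg (art_small_mul hG1 ((Φ ⟨P, hP⟩).algebraMap_mem' _)))
        (art_small_mul hd1 hGm)
    have key := (art_mem_iff (K := K) (F := F) (toHOS ⟨P, hP⟩)
      (algebraMap K[X] (integralClosure K[X] F) (a P) - x)).mpr (by rw [hcoe]; exact hsmall)
    exact key
  have hsum := trace_eq_sum_residues (Ideal.span {X - C (0 : K)} : Ideal K[X]) hp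
    (art_hsurj (K := K) (F := F) 0) x a hares
  -- the trace
  have htr : Algebra.trace K[X] (integralClosure K[X] F) x = d * C τ₀ := by
    have h3 := art_trace_eq d G hint1
    have h4 : Algebra.trace (RatFunc K) F G = algebraMap K[X] (RatFunc K) (C τ₀) := by
      apply (algebraMap (RatFunc K) F).injective
      rw [hτ, ← IsScalarTower.algebraMap_apply K[X] (RatFunc K) F, algebraMap_poly_eq_aeval,
        aeval_C]
    rw [h4, ← map_mul] at h3
    exact RatFunc.algebraMap_injective K h3
  have hsum2 := congrArg (artEval (0 : K)) hsum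
  rw [artEval_mk, htr, map_sum] at hsum2
  simp only [map_mul, artEval_mk, map_natCast, eval_mul, eval_C, ha] at hsum2
  -- reindexing
  have hre : ∑ P ∈ s, ((Ideal.ramificationIdx' (Ideal.span {X - C (0 : K)} : Ideal K[X]) P : ℕ) : K)
      * (d.eval 0 * cc P) =
      d.eval 0 * ∑ᶠ v ∈ {v : Place K F | 0 < v.ord (yOf K F)},
        ((v.ord (yOf K F) : ℤ) : K) * cv v := by
    rw [hZ, finsum_mem_coe_finset, Finset.sum_image (fun P _ Q _ h => hΦinj h),
      ← Finset.sum_attach s, Finset.mul_sum]
    refine Finset.sum_congr rfl fun P _ => ?_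
    have he1 := expAt_eq_ramificationIdx' (A := K[X]) (B := integralClosure K[X] F)
      (X - C (0 : K)) (art_algebraMap_ne_zero 0) (toHOS P)
    have he2 := rh_expAt_cast (K := K) (F := F) (A := K[X]) (B := integralClosure K[X] F)
      (X - C (0 : K)) (toHOS P)
    rw [rh_frame_algebraMap_X_sub_C, h00] at he2
    have he3 : ((Ideal.ramificationIdx' (Ideal.span {X - C (0 : K)} : Ideal K[X]) P.1 : ℕ) : K) =
        (((Φ P).ord (yOf K F) : ℤ) : K) := by
      rw [← he2, he1]
      simp
      rfl
    rw [he3]
    simp only [hcc, dif_pos P.2]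
    ring
  rw [hre] at hsum2
  exact mul_left_cancel₀ hdc hsum2

end artcore

end

end Fermat.Agent.H2
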