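/-
helper2, P-MW / MW-A1-ART (row 709): the algebraic residue theorem for `G dy / y`.
Part 2: instantiation of the chart theorem for `y` and `y⁻¹`, and the global assembly.
-/
import Fermat.Agent.H2.MWDiv.ARTChart

set_option autoImplicit false
set_option linter.style.haveILetI false
set_option linter.unusedSectionVars false

open Polynomial AlgebraicCurve IsDedekindDomain IntermediateField

namespace Fermat.Agent.H2

noncomputable section

open Fermat.Agent.H56.RH Fermat.Agent.H19 Fermat.Agent.H47.RH Fermat.Agent.H23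

section artfinal

variable {K F : Type} [Field K] [Field F] [Algebra K F]

/-- the trace over `K(X)` in the frame of `y` is the trace over `K⟮y⟯` -/
theorem art_trace_frame (y : F) (hy : Transcendental K y) (G : F) :
    letI := ratFuncAlgebra y hy
    algebraMap (RatFunc K) F (Algebra.trace (RatFunc K) F G) =
      algebraMap K⟮y⟯ F (Algebra.trace K⟮y⟯ F G) := by
  letI := ratFuncAlgebra y hy
  have he := ratFuncAlgebra_comp_eq y hy
  have h1 := Algebra.trace_eq_of_equiv_equiv
    ((RatFunc.algEquivOfTranscendental y hy).symm : K⟮y⟯ ≃+* RatFunc K) (RingEquiv.refl F) he G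
  rw [h1]
  have h2 := congrFun (congrArg DFunLike.coe he)
    (((RatFunc.algEquivOfTranscendental y hy).symm : K⟮y⟯ ≃+* RatFunc K).symm
      (Algebra.trace (RatFunc K) F G))
  simp only [RingHom.coe_comp, Function.comp_apply] at h2
  simpa using h2

theorem art_trace_congr {E₁ E₂ : IntermediateField K F} (h : E₁ = E₂) (G : F) :
    algebraMap E₁ F (Algebra.trace E₁ F G) = algebraMap E₂ F (Algebra.trace E₂ F G) := by
  subst h
  rfl

theorem art_adjoin_inv (y : F) : K⟮y⁻¹⟯ = K⟮y⟯ := by
  apply le_antisymm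
  · rw [IntermediateField.adjoin_simple_le_iff]
    exact inv_mem (IntermediateField.mem_adjoin_simple_self K y)
  · rw [IntermediateField.adjoin_simple_le_iff]
    have := inv_mem (IntermediateField.mem_adjoin_simple_self K y⁻¹)
    rwa [inv_inv] at this

theorem art_finite_congr {E₁ E₂ : IntermediateField K F} (h : E₁ = E₂)
    (hfin : FiniteDimensional E₁ F) : FiniteDimensional E₂ F := by
  subst h
  exact hfin

/-- the chart theorem for a coordinate `y` -/
theorem art_chart [IsAlgClosed K] [CharZero K] (y : F) (hy : Transcendental K y)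
    (hfin : FiniteDimensional K⟮y⟯ F) (G : F) (hG0 : G ≠ 0) (cv : Place K F → K)
    (hc : ∀ (c : K) (v : Place K F), 0 < v.ord (y - algebraMap K F c) →
      1 - v.ord (y - algebraMap K F c) ≤ v.ord G)
    (hval : ∀ v : Place K F, 0 < v.ord y →
      0 ≤ v.ord G ∧ (G = algebraMap K F (cv v) ∨ 0 < v.ord (G - algebraMap K F (cv v)))) :
    (∀ v : Place K F, 0 ≤ v.ord y →
      0 ≤ v.ord (algebraMap K⟮y⟯ F (Algebra.trace K⟮y⟯ F G))) ∧
    (∀ τ₀ : K, algebraMap K⟮y⟯ F (Algebra.trace K⟮y⟯ F G) = algebraMap K F τ₀ →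
      {v : Place K F | 0 < v.ord y}.Finite ∧
      τ₀ = ∑ᶠ v ∈ {v : Place K F | 0 < v.ord y}, ((v.ord y : ℤ) : K) * cv v) := by
  haveI hsep : Algebra.IsSeparable K⟮y⟯ F := inferInstance
  letI := polyAlgebra (K := K) y
  letI := ratFuncAlgebra y hy
  haveI := isScalarTower_poly_ratFunc y hy
  haveI := isScalarTower_const_poly (K := K) y
  haveI := isScalarTower_const_ratFunc y hy
  letI : Algebra (PolyInv K) F :=
    ((algebraMap (RatFunc K) F).comp (algebraMap (PolyInv K) (RatFunc K))).toAlgebra
  haveI : IsScalarTower (PolyInv K) (RatFunc K) F :=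
    IsScalarTower.of_algebraMap_eq fun _ => rfl
  haveI : IsScalarTower K (PolyInv K) F := IsScalarTower.of_algebraMap_eq fun c => by
    rw [IsScalarTower.algebraMap_apply (PolyInv K) (RatFunc K) F,
      ← IsScalarTower.algebraMap_apply K (PolyInv K) (RatFunc K),
      ← IsScalarTower.algebraMap_apply K (RatFunc K) F]
  obtain ⟨hfd, hsp, -⟩ := rhFrame K F y hy hfin hsep
  haveI := hfd
  haveI := hsp
  have hy' : yOf K F = y := ratFuncHom_X y hy
  have htr := art_trace_frame y hy G
  have h1 := art_trace_regular (K := K) (F := F) G hG0 (by rw [hy']; exact hc)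
  have h2 := art_trace_value (K := K) (F := F) G hG0 cv (by rw [hy']; exact hval)
  rw [hy', htr] at h1
  rw [hy', htr] at h2
  exact ⟨h1, h2⟩

open Fermat.Agent.H27.ESD in
/-- a function without poles is constant -/
theorem art_const_of_regular {g : ℕ} (pkg : RiemannPackage K F g) (f : F)
    (hf : ∀ v : Place K F, 0 ≤ v.ord f) : ∃ τ₀ : K, f = algebraMap K F τ₀ := by
  have h1 : (1 : F) ∈ riemannRochSpace (0 : Divisor K F) := by
    rw [mem_riemannRochSpace_iff]
    intro v
    right
    simp
  have hfm : f ∈ riemannRochSpace (0 : Divisor K F) := by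
    rw [mem_riemannRochSpace_iff]
    intro v
    right
    simpa using hf v
  have h2 := pkg.finrank_zero
  rw [finrank_eq_one_iff_of_nonzero' (⟨1, h1⟩ : riemannRochSpace (0 : Divisor K F))
    (by simp [Subtype.ext_iff])] at h2
  obtain ⟨τ₀, h⟩ := h2 ⟨f, hfm⟩
  refine ⟨τ₀, ?_⟩
  have h3 := congrArg Subtype.val h
  simp only [Submodule.coe_smul] at h3
  rw [← h3, Algebra.smul_def, mul_one]

end artfinal

open Fermat.Agent.H27.ESD in
/-- **[A1-ART]** the algebraic residue theorem for `G dy / y`. -/
theorem algResidue : Fermat.Agent.H84.MWDiv.AlgResidueStatement := by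
  intro K F _ _ _ _ _ g pkg y hy hfin G c h1 h2
  by_cases hG0 : G = 0
  · apply finsum_mem_eq_zero_of_forall_eq_zero
    intro v hv
    have hcv : c v = 0 := by
      rcases (h1 v hv).2 with h | h
      · rw [hG0] at h
        exact ((map_eq_zero (algebraMap K F)).mp h.symm)
      · rw [hG0, zero_sub, ord_neg, ord_algebraMap] at h
        exact absurd h (lt_irrefl _)
    rw [hcv, mul_zero]
  have hy0 : y ≠ 0 := by
    rintro rfl
    exact hy (isAlgebraic_zero)
  have hyinv : Transcendental K y⁻¹ := by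
    intro h
    apply hy
    have := h.inv
    rwa [inv_inv] at this
  have hfin' : FiniteDimensional K⟮y⁻¹⟯ F := art_finite_congr (art_adjoin_inv y).symm hfin
  -- chart hypotheses for `y`
  have hc1 : ∀ (c' : K) (v : Place K F), 0 < v.ord (y - algebraMap K F c') →
      1 - v.ord (y - algebraMap K F c') ≤ v.ord G := by
    intro c' v hv
    by_cases hc0 : c' = 0
    · subst hc0
      rw [map_zero, sub_zero] at hv ⊢
      have := (h1 v hv.ne').1
      omega
    · have h0 : v.ord y = 0 := by
        have := (klbr_sub_const_of_pos v hv (b := 0) (Ne.symm hc0)).2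
        simpa using this
      have := h2 v h0
      rw [rh_ramIdx_of_ord_sub_pos' v hv] at this
      omega
  have hv1 : ∀ v : Place K F, 0 < v.ord y →
      0 ≤ v.ord G ∧ (G = algebraMap K F (c v) ∨ 0 < v.ord (G - algebraMap K F (c v))) :=
    fun v hv => h1 v hv.ne'
  -- chart hypotheses for `y⁻¹`
  have hc2 : ∀ (c' : K) (v : Place K F), 0 < v.ord (y⁻¹ - algebraMap K F c') →
      1 - v.ord (y⁻¹ - algebraMap K F c') ≤ v.ord G := by
    intro c' v hv
    by_cases hc0 : c' = 0
    · subst hc0
      rw [map_zero, sub_zero] at hv ⊢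
      have hneg : v.ord y ≠ 0 := by
        rw [v.ord_inv] at hv
        omega
      have := (h1 v hneg).1
      omega
    · have h0' : v.ord y⁻¹ = 0 := by
        have := (klbr_sub_const_of_pos v hv (b := 0) (Ne.symm hc0)).2
        simpa using this
      have h0 : v.ord y = 0 := by
        rw [v.ord_inv] at h0'
        omega
      have hne1 : y⁻¹ - algebraMap K F c' ≠ 0 := klbr_ne_zero_of_ord_ne hv.ne'
      have hne2 : algebraMap K F c'⁻¹ ≠ 0 := by
        rw [Ne, map_eq_zero]
        exact inv_ne_zero hc0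
      have hc'F : algebraMap K F c' ≠ 0 := by
        rw [Ne, map_eq_zero]
        exact hc0
      have e1 : y - algebraMap K F c'⁻¹ =
          -((y⁻¹ - algebraMap K F c') * (y * algebraMap K F c'⁻¹)) := by
        rw [map_inv₀]
        field_simp
        ring
      have key : v.ord (y - algebraMap K F c'⁻¹) = v.ord (y⁻¹ - algebraMap K F c') := by
        rw [e1, ord_neg, v.ord_mul hne1 (mul_ne_zero hy0 hne2), v.ord_mul hy0 hne2, h0,
          ord_algebraMap]
        ring
      have hv' : 0 < v.ord (y - algebraMap K F c'⁻¹) := by rw [key]; exact hv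
      have := h2 v h0
      rw [rh_ramIdx_of_ord_sub_pos' v hv', key] at this
      omega
  have hv2 : ∀ v : Place K F, 0 < v.ord y⁻¹ →
      0 ≤ v.ord G ∧ (G = algebraMap K F (c v) ∨ 0 < v.ord (G - algebraMap K F (c v))) := by
    intro v hv
    refine h1 v ?_
    rw [v.ord_inv] at hv
    omega
  obtain ⟨hreg1, hval1⟩ := art_chart y hy hfin G hG0 c hc1 hv1
  obtain ⟨hreg2, hval2⟩ := art_chart y⁻¹ hyinv hfin' G hG0 c hc2 hv2
  rw [art_trace_congr (art_adjoin_inv y) G] at hreg2 hval2
  have hreg : ∀ v : Place K F, 0 ≤ v.ord (algebraMap K⟮y⟯ F (Algebra.trace K⟮y⟯ F G)) := by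
    intro v
    rcases le_or_gt 0 (v.ord y) with h | h
    · exact hreg1 v h
    · exact hreg2 v (by rw [v.ord_inv]; omega)
  obtain ⟨τ₀, hτ₀⟩ := art_const_of_regular pkg _ hreg
  obtain ⟨hfin1, hs1⟩ := hval1 τ₀ hτ₀
  obtain ⟨hfin2, hs2⟩ := hval2 τ₀ hτ₀
  have hset : {v : Place K F | v.ord y ≠ 0} =
      {v : Place K F | 0 < v.ord y} ∪ {v : Place K F | 0 < v.ord y⁻¹} := by
    ext v
    simp only [Set.mem_ofPred_eq, Set.mem_union, Place.ord_inv]
    omega
  have hdisj : Disjoint {v : Place K F | 0 < v.ord y} {v : Place K F | 0 < v.ord y⁻¹} := by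
    rw [Set.disjoint_left]
    intro v hv hv'
    simp only [Set.mem_ofPred_eq, Place.ord_inv] at hv hv'
    omega
  have hs2' : ∑ᶠ v ∈ {v : Place K F | 0 < v.ord y⁻¹}, ((v.ord y : ℤ) : K) * c v = -τ₀ := by
    have e : ∀ v ∈ {v : Place K F | 0 < v.ord y⁻¹},
        ((v.ord y : ℤ) : K) * c v = -(((v.ord y⁻¹ : ℤ) : K) * c v) := by
      intro v _
      rw [v.ord_inv]
      push_cast
      ring
    rw [finsum_mem_congr rfl e,
      finsum_mem_neg_distrib (fun v : Place K F => ((v.ord y⁻¹ : ℤ) : K) * c v) hfin2, ← hs2]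
  rw [hset, finsum_mem_union hdisj hfin1 hfin2, ← hs1, hs2']
  ring

end

end Fermat.Agent.H2
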